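import Mathlib

set_option autoImplicit false

open NumberField

namespace Fermat.Agent.S11

instance fact_prime_eleven : Fact (Nat.Prime 11) := ⟨by norm_num⟩

section Defs

variable {p : ℕ} [hp : Fact p.Prime] {K : Type*} [Field K] {ζ : K} (hζ : IsPrimitiveRoot ζ p)

/-- `ζ` as a unit of the ring of integers. -/
noncomputable def zetaUnit : (𝓞 K)ˣ :=
  (IsPrimitiveRoot.isUnit (hζ.toInteger_isPrimitiveRoot) hp.out.ne_zero).unit

@[simp] lemma coe_zetaUnit : ((zetaUnit hζ : (𝓞 K)ˣ) : 𝓞 K) = hζ.toInteger := rfl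

/-- The element `1 + ζ + ... + ζ^(k-1)`. -/
noncomputable def cycElt (k : ℕ) : 𝓞 K := ∑ i ∈ Finset.range k, hζ.toInteger ^ i

lemma sub_one_mul_cycElt (k : ℕ) :
    (hζ.toInteger - 1) * cycElt hζ k = hζ.toInteger ^ k - 1 :=
  mul_geom_sum _ _

variable [NumberField K] [IsCyclotomicExtension {p} ℚ K]

theorem isUnit_cycElt (k : ℕ) (hk : ¬ p ∣ k) : IsUnit (cycElt hζ k) := by
  have hcop : k.Coprime p := ((Nat.Prime.coprime_iff_not_dvd hp.out).mpr hk).symm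
  have hass : Associated (hζ.toInteger - 1) (hζ.toInteger ^ k - 1) :=
    hζ.toInteger_isPrimitiveRoot.associated_sub_one_pow_sub_one_of_coprime hcop
  have hne : hζ.toInteger - 1 ≠ 0 := hζ.zeta_sub_one_prime'.ne_zero
  obtain ⟨u, hu⟩ := hass
  have : cycElt hζ k = u := by
    apply mul_left_cancel₀ hne
    rw [sub_one_mul_cycElt, hu]
  rw [this]
  exact u.isUnit

open Classical in
/-- The cyclotomic unit `1 + ζ + ... + ζ^(k-1)` (junk value `1` when `p ∣ k`). -/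
noncomputable def cycUnit (k : ℕ) : (𝓞 K)ˣ :=
  if hk : ¬ p ∣ k then (isUnit_cycElt hζ k hk).unit else 1

lemma coe_cycUnit (k : ℕ) (hk : ¬ p ∣ k) :
    ((cycUnit hζ k : (𝓞 K)ˣ) : 𝓞 K) = cycElt hζ k := by
  simp [cycUnit, hk]

/-- General element of the group generated by `-1`, `ζ` and the cyclotomic units
`1 + ζ + ... + ζ^(k-1)`, `2 ≤ k ≤ (p-1)/2`. -/
noncomputable def cycProd (s a : ℤ) (e : ℕ → ℤ) : (𝓞 K)ˣ :=
  (-1) ^ s * zetaUnit hζ ^ a * ∏ k ∈ Finset.Icc 2 ((p - 1) / 2), cycUnit hζ k ^ e k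

/-- Power-residue certificate: a product of cyclotomic units which is a `p`-th power has all
exponents divisible by `p`. -/
def PowCert : Prop :=
  ∀ (s a : ℤ) (e : ℕ → ℤ) (v : (𝓞 K)ˣ), cycProd hζ s a e = v ^ p →
    (p : ℤ) ∣ a ∧ ∀ k ∈ Finset.Icc 2 ((p - 1) / 2), (p : ℤ) ∣ e k

/-- Congruence certificate: a product of cyclotomic units which is congruent to a rational
integer modulo `p` has all exponents divisible by `p`. -/
def CongrCert : Prop :=
  ∀ (s a : ℤ) (e : ℕ → ℤ) (n : ℤ), (p : 𝓞 K) ∣ (cycProd hζ s a e : 𝓞 K) - n →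
    (p : ℤ) ∣ a ∧ ∀ k ∈ Finset.Icc 2 ((p - 1) / 2), (p : ℤ) ∣ e k

end Defs

/-- Kummer's lemma for the prime `p` and the `p`-th cyclotomic field `K`. -/
def KummerLemma (p : ℕ) (K : Type*) [Field K] : Prop :=
  ∀ (u : (𝓞 K)ˣ) (n : ℤ), (p : 𝓞 K) ∣ (u : 𝓞 K) - n → ∃ v : (𝓞 K)ˣ, u = v ^ p

end Fermat.Agent.S11
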