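import Fermat.Statements.S11

set_option autoImplicit false

namespace Fermat.Agent.S11

/-- A Frey package with exponent `n` contradicts Fermat's Last Theorem for `n`. -/
theorem false_of_freyPackage_of_flt (P : FreyPackage) (h : FermatLastTheoremFor P.p) : False := by
  rw [fermatLastTheoremFor_iff_int] at h
  exact h P.a P.b P.c P.ha0 P.hb0 P.hc0 P.hFLT

end Fermat.Agent.S11
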